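import Fermat.Agent.EC.Reduction.Galois
import Fermat.Agent.Arith.Frobenius
import Fermat.Agent.Arith.RootsOfUnity
import Fermat.Prelude.Def_EllipticCurve_ZeroComponentAt

/-!
# Integral models at places of the algebraic closure of `ℚ`

At a good prime all points have nonsingular reduction and the torsion representation is unramified
(`galoisRepUnramifiedAt_of_good`). Frobenius elements reduce to the Frobenius of the reduced
curve (`redFun_frobenius`).
-/

set_option autoImplicit false

open WeierstrassCurve WeierstrassCurve.Affine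
open scoped WeierstrassCurve.Affine Pointwise
open Fermat.Agent.Arith

namespace Fermat.Agent.EC.Reduction

variable {A : ValuationSubring (AlgebraicClosure ℚ)} {q : ℕ}

local notation "Q̄" => AlgebraicClosure ℚ

/-- The curve over `AlgebraicClosure ℚ` of an integral model reduces to its residual curve. -/
lemma reducesTo_int (W : WeierstrassCurve ℤ) (A : ValuationSubring Q̄) :
    ReducesTo A ((W.map (Int.castRingHom ℚ))⁄Q̄)
      (W.map (Int.castRingHom (IsLocalRing.ResidueField A))) := by
  refine ⟨W.map (Int.castRingHom A), ?_, ?_⟩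
  · show _ = (W.map (Int.castRingHom ℚ)).map (algebraMap ℚ Q̄)
    rw [WeierstrassCurve.map_map, WeierstrassCurve.map_map]
    exact congr_arg W.map (RingHom.ext_int _ _)
  · rw [WeierstrassCurve.map_map]
    exact congr_arg W.map (RingHom.ext_int _ _)

lemma inZeroComponentAt_iff (W : WeierstrassCurve ℤ)
    (P : ((W.map (Int.castRingHom ℚ))⁄Q̄).Point) :
    W.InZeroComponentAt A P ↔
      InE0 A (W.map (Int.castRingHom (IsLocalRing.ResidueField A))) P := by
  match P with
  | .zero => exact iff_of_true (Or.inl rfl) trivial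
  | .some x y hn =>
    rw [inE0_some]
    constructor
    · rintro (h | ⟨x', y', h', e, h⟩)
      · exact absurd h (Point.some_ne_zero _)
      · obtain ⟨rfl, rfl⟩ := (Point.some.injEq ..).mp e
        refine h.imp id ?_
        rintro ⟨hx, hy, hn'⟩
        rwa [res_of_mem hx, res_of_mem hy]
    · intro h
      refine Or.inr ⟨x, y, hn, rfl, ?_⟩
      by_cases hx : x ∈ A
      · have hy := (reducesTo_int W A).y_mem hn.left hx
        have h' := h.resolve_left (not_not_intro hx)
        rw [res_of_mem hx, res_of_mem hy] at h'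
        exact Or.inr ⟨hx, hy, h'⟩
      · exact Or.inl hx

lemma valuation_natCast_eq_one (hA : A.LiesOverPrime q) (hq : q.Prime) {n : ℕ} (hn : ¬ q ∣ n) :
    A.valuation (n : Q̄) = 1 :=
  le_antisymm ((A.valuation_le_one_iff _).mpr (natCast_mem A n))
    (not_lt.mp fun h => hn ((natCast_mem_nonunits_iff hA hq n).mp h))

lemma residual_intCast_eq_zero_iff (hA : A.LiesOverPrime q) (hq : q.Prime) (m : ℤ) :
    (m : IsLocalRing.ResidueField A) = 0 ↔ (q : ℤ) ∣ m := by
  rw [← intCast_mem_nonunits_iff hA hq m, ← res_eq_zero_iff (intCast_mem A m),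
    res_of_mem (intCast_mem A m)]
  exact Eq.congr_left (map_intCast (IsLocalRing.residue A) m).symm

lemma residual_Δ_ne_zero (hA : A.LiesOverPrime q) (hq : q.Prime) {W : WeierstrassCurve ℤ}
    (hΔ : ¬ (q : ℤ) ∣ W.Δ) :
    (W.map (Int.castRingHom (IsLocalRing.ResidueField A))).Δ ≠ 0 := by
  rw [map_Δ]
  exact fun e => hΔ ((residual_intCast_eq_zero_iff hA hq _).mp e)

/-- At a good prime all points have nonsingular reduction. -/
lemma inE0_of_good (hA : A.LiesOverPrime q) (hq : q.Prime) {W : WeierstrassCurve ℤ}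
    (hΔ : ¬ (q : ℤ) ∣ W.Δ) (P : ((W.map (Int.castRingHom ℚ))⁄Q̄).Point) :
    InE0 A (W.map (Int.castRingHom (IsLocalRing.ResidueField A))) P :=
  (reducesTo_int W A).inE0_of_Δ_ne_zero (residual_Δ_ne_zero hA hq hΔ) P

variable {σ : Q̄ ≃ₐ[ℚ] Q̄}

lemma res_inertia (hσ : σ ∈ A.inertiaSubgroupIn ℚ) :
    σ • A = A ∧ ∀ x ∈ A, res A (σ x) = res A x := by
  obtain ⟨h, h'⟩ := mem_inertia_iff_forall_mem.mp hσ
  refine ⟨h, fun x hx => ?_⟩
  have hσx := map_mem_of_mem_decomposition h hx
  rw [← sub_eq_zero, ← res_sub hσx hx]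
  exact res_eq_zero (h' x hx)

lemma res_frobenius (hσ : A.IsFrobeniusAt σ q) :
    σ • A = A ∧ ∀ x ∈ A, res A (σ x) = res A x ^ q := by
  obtain ⟨h, h'⟩ := isFrobeniusAt_iff_forall_mem.mp hσ
  refine ⟨h, fun x hx => ?_⟩
  have hσx := map_mem_of_mem_decomposition h hx
  rw [← res_pow hx, ← sub_eq_zero, ← res_sub hσx (pow_mem hx q)]
  exact res_eq_zero (h' x hx)

/-- Inertia fixes the torsion points of nonsingular reduction of order prime to `q`. -/
theorem smul_eq_self_of_inE0 (W : WeierstrassCurve ℤ) (hA : A.LiesOverPrime q) (hq : q.Prime)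
    (hσ : σ ∈ A.inertiaSubgroupIn ℚ) {n : ℕ} (hn : ¬ q ∣ n)
    {P : ((W.map (Int.castRingHom ℚ))⁄Q̄).Point}
    (hP : InE0 A (W.map (Int.castRingHom (IsLocalRing.ResidueField A))) P)
    (hP' : n • P = 0) : σ • P = P := by
  classical
  exact (reducesTo_int W A).smul_eq_self_of_inertia (res_inertia hσ).1 (res_inertia hσ).2
    (valuation_natCast_eq_one hA hq hn) hP hP'

/-- Néron–Ogg–Shafarevich, the easy direction. -/
theorem galoisRepUnramifiedAt_of_good (W : WeierstrassCurve ℤ) {n : ℕ} (hq : q.Prime)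
    (hΔ : ¬ (q : ℤ) ∣ W.Δ) (hn : ¬ q ∣ n) :
    Point.GaloisRepUnramifiedAt (K := Q̄) ℚ (W.map (Int.castRingHom ℚ)) n q := by
  intro A hA σ hσ x
  refine Subtype.ext (smul_eq_self_of_inE0 W hA hq hσ hn (inE0_of_good hA hq hΔ _) ?_)
  have h := (Submodule.mem_torsionBy_iff _ _).mp x.2
  rwa [natCast_zsmul] at h

/-- The residual `q`-power map as a `ℤ`-algebra map. -/
noncomputable def residualFrobenius (hA : A.LiesOverPrime q) (hq : q.Prime) :
    IsLocalRing.ResidueField A →ₐ[ℤ] IsLocalRing.ResidueField A :=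
  haveI := residueField_charP hA hq
  haveI := Fact.mk hq
  (frobenius (IsLocalRing.ResidueField A) q).toIntAlgHom

lemma residualFrobenius_apply (hA : A.LiesOverPrime q) (hq : q.Prime)
    (x : IsLocalRing.ResidueField A) : residualFrobenius hA hq x = x ^ q := rfl

/-- A Frobenius element reduces to the Frobenius of the reduced curve. -/
theorem redFun_frobenius [DecidableEq (IsLocalRing.ResidueField A)] (W : WeierstrassCurve ℤ)
    (hA : A.LiesOverPrime q) (hq : q.Prime) (hσ : A.IsFrobeniusAt σ q)
    (P : ((W.map (Int.castRingHom ℚ))⁄Q̄).Point) :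
    (redFun A (W⁄(IsLocalRing.ResidueField A)) (σ • P) :
        (W⁄(IsLocalRing.ResidueField A)).Point) =
      Point.map (residualFrobenius hA hq)
        (redFun A (W⁄(IsLocalRing.ResidueField A)) P :
          (W⁄(IsLocalRing.ResidueField A)).Point) := by
  have h : ReducesTo A ((W.map (Int.castRingHom ℚ))⁄Q̄) (W⁄(IsLocalRing.ResidueField A)) :=
    reducesTo_int W A
  obtain ⟨hs, hf⟩ := res_frobenius hσ
  match he : redFun A (W⁄(IsLocalRing.ResidueField A)) P with
  | .zero =>
    exact h.redFun_smul_zero (φ := (residualFrobenius hA hq).toRingHom) hs hf he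
  | .some c d hcd =>
    match P with
    | .zero => exact absurd he.symm (Point.some_ne_zero _)
    | .some x y hn =>
      exact h.redFun_smul_some (φ := (residualFrobenius hA hq).toRingHom) hs hf he

end Fermat.Agent.EC.Reduction
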